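import Mathlib

set_option autoImplicit false

namespace Fermat.Agent.S57_helper75

open MvPowerSeries RingTheory.Sequence

section LowIdeal

variable (A : Type*) [CommRing A] (r : ℕ)

/-- Power series in `r` variables all of whose monomials involve some `X j` with `j < i`. -/
def lowIdeal (i : ℕ) : Ideal (MvPowerSeries (Fin r) A) where
  carrier := {f | ∀ n : Fin r →₀ ℕ, (∀ j : Fin r, (j : ℕ) < i → n j = 0) → coeff n f = 0}
  add_mem' {f g} hf hg n hn := by
    rw [map_add, hf n hn, hg n hn, add_zero]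
  zero_mem' n _ := by simp
  smul_mem' c f hf n hn := by
    classical
    rw [smul_eq_mul, coeff_mul]
    refine Finset.sum_eq_zero fun p hp => ?_
    rw [Finset.HasAntidiagonal.mem_antidiagonal] at hp
    have : coeff p.2 f = 0 := by
      refine hf p.2 fun j hj => ?_
      have h1 : (p.1 + p.2) j = 0 := by rw [hp]; exact hn j hj
      rw [Finsupp.add_apply] at h1
      omega
    rw [this, mul_zero]

variable {A r}

lemma mem_lowIdeal_iff {i : ℕ} {f : MvPowerSeries (Fin r) A} :
    f ∈ lowIdeal A r i ↔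
      ∀ n : Fin r →₀ ℕ, (∀ j : Fin r, (j : ℕ) < i → n j = 0) → coeff n f = 0 := Iff.rfl

lemma lowIdeal_zero : lowIdeal A r 0 = ⊥ := by
  rw [eq_bot_iff]
  intro f hf
  rw [Submodule.mem_bot]
  ext n
  rw [coeff_zero]
  exact hf n fun j hj => absurd hj (Nat.not_lt_zero _)

lemma X_mem_lowIdeal {i : ℕ} (j : Fin r) (hj : (j : ℕ) < i) :
    (X j : MvPowerSeries (Fin r) A) ∈ lowIdeal A r i := by
  classical
  intro n hn
  rw [coeff_X, if_neg]
  intro h
  have := hn j hj
  rw [h] at this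
  simp at this

lemma lowIdeal_succ_le (i : ℕ) (hi : i < r) :
    lowIdeal A r (i + 1) ≤ lowIdeal A r i ⊔ Ideal.span {(X ⟨i, hi⟩ : MvPowerSeries (Fin r) A)} := by
  classical
  intro f hf
  -- `f₂` = the part of `f` not involving `X i`
  let f₂ : MvPowerSeries (Fin r) A := fun n => if n ⟨i, hi⟩ = 0 then coeff n f else 0
  have hf₂ : ∀ n, coeff n f₂ = if n ⟨i, hi⟩ = 0 then coeff n f else 0 := fun n => rfl
  have h2 : f₂ ∈ lowIdeal A r i := by
    intro n hn
    rw [hf₂]
    split_ifs with h0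
    · refine hf n fun j hj => ?_
      rcases Nat.lt_succ_iff_lt_or_eq.mp hj with h | h
      · exact hn j h
      · have : j = ⟨i, hi⟩ := Fin.ext h
        rw [this]; exact h0
    · rfl
  have h1 : (X ⟨i, hi⟩ : MvPowerSeries (Fin r) A) ∣ f - f₂ := by
    rw [X_dvd_iff]
    intro m hm
    rw [map_sub, hf₂, if_pos hm, sub_self]
  have : f = f₂ + (f - f₂) := by ring
  rw [this]
  exact Submodule.add_mem_sup h2 (Ideal.mem_span_singleton.mpr h1)

lemma lowIdeal_eq_span (i : ℕ) (hi : i ≤ r) :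
    lowIdeal A r i =
      Ideal.span {x | ∃ j : Fin r, (j : ℕ) < i ∧ (X j : MvPowerSeries (Fin r) A) = x} := by
  apply le_antisymm
  · induction i with
    | zero => rw [lowIdeal_zero]; exact bot_le
    | succ i ih =>
      have hi' : i < r := hi
      refine (lowIdeal_succ_le i hi').trans (sup_le ?_ ?_)
      · refine (ih hi'.le).trans (Ideal.span_mono ?_)
        rintro x ⟨j, hj, rfl⟩
        exact ⟨j, Nat.lt_succ_of_lt hj, rfl⟩
      · rw [Ideal.span_le, Set.singleton_subset_iff]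
        exact Ideal.subset_span ⟨⟨i, hi'⟩, Nat.lt_succ_self i, rfl⟩
  · rw [Ideal.span_le]
    rintro x ⟨j, hj, rfl⟩
    exact X_mem_lowIdeal j hj

lemma X_smul_mem_lowIdeal {i : ℕ} (hi : i < r) {f : MvPowerSeries (Fin r) A}
    (h : (X ⟨i, hi⟩ : MvPowerSeries (Fin r) A) * f ∈ lowIdeal A r i) : f ∈ lowIdeal A r i := by
  intro n hn
  have key : coeff (Finsupp.single ⟨i, hi⟩ 1 + n) ((X ⟨i, hi⟩ : MvPowerSeries (Fin r) A) * f)
      = coeff n f := by
    rw [X_def, coeff_add_monomial_mul, one_mul]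
  rw [← key]
  refine h _ fun j hj => ?_
  rw [Finsupp.add_apply, hn j hj, add_zero, Finsupp.single_apply, if_neg]
  intro hij
  rw [← hij] at hj
  exact absurd hj (lt_irrefl _)

lemma mem_lowIdeal_top_iff {f : MvPowerSeries (Fin r) A} :
    f ∈ lowIdeal A r r ↔ constantCoeff f = 0 := by
  rw [← coeff_zero_eq_constantCoeff_apply]
  constructor
  · intro h
    exact h 0 fun j _ => rfl
  · intro h n hn
    have : n = 0 := by
      ext j
      exact hn j j.2
    rw [this]; exact h

end LowIdeal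

section Regular

variable {𝒪 : Type*} [CommRing 𝒪] {r : ℕ}

/-- the candidate regular sequence `X 0, …, X (r-1), C ϖ`. -/
noncomputable def regList (r : ℕ) (ϖ : 𝒪) : List (MvPowerSeries (Fin r) 𝒪) :=
  List.ofFn (fun j : Fin r => (X j : MvPowerSeries (Fin r) 𝒪)) ++ [C ϖ]

lemma regList_length (ϖ : 𝒪) : (regList r ϖ).length = r + 1 := by
  simp [regList]

lemma ofList_take_regList (ϖ : 𝒪) (i : ℕ) (hi : i ≤ r) :
    Ideal.ofList ((regList r ϖ).take i) = lowIdeal 𝒪 r i := by
  rw [lowIdeal_eq_span i hi, Ideal.ofList]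
  congr 1
  ext x
  change x ∈ List.take i (regList r ϖ) ↔ ∃ j : Fin r, (j : ℕ) < i ∧ X j = x
  rw [regList, List.take_append_of_le_length (by simpa using hi), List.mem_take_iff_getElem]
  constructor
  · rintro ⟨k, hk, rfl⟩
    rw [List.length_ofFn] at hk
    have hk' : k < r := lt_of_lt_of_le hk (min_le_right _ _)
    exact ⟨⟨k, hk'⟩, lt_of_lt_of_le hk (min_le_left _ _), by simp⟩
  · rintro ⟨j, hj, rfl⟩
    refine ⟨j, ?_, by simp⟩
    rw [List.length_ofFn]
    exact lt_min hj j.2

lemma regList_getElem_lt (ϖ : 𝒪) (i : ℕ) (hi : i < r) :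
    (regList r ϖ)[i]'(by rw [regList_length]; omega) = (X ⟨i, hi⟩ : MvPowerSeries (Fin r) 𝒪) := by
  unfold regList
  rw [List.getElem_append_left (by simpa using hi)]
  simp

lemma regList_getElem_last (ϖ : 𝒪) :
    (regList r ϖ)[r]'(by rw [regList_length]; omega) = (C ϖ : MvPowerSeries (Fin r) 𝒪) := by
  unfold regList
  rw [List.getElem_append_right (by simp)]
  simp

theorem isWeaklyRegular_regList [IsDomain 𝒪] (ϖ : 𝒪) (hϖ : ϖ ≠ 0) :
    IsWeaklyRegular (MvPowerSeries (Fin r) 𝒪) (regList r ϖ) := by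
  refine ⟨fun i hi => ?_⟩
  rw [regList_length] at hi
  have hi' : i ≤ r := Nat.lt_succ_iff.mp hi
  rw [ofList_take_regList ϖ i hi', isSMulRegular_quotient_iff_mem_of_smul_mem]
  intro f hf
  rw [smul_eq_mul, Ideal.mul_top] at hf ⊢
  rw [smul_eq_mul] at hf
  rcases Nat.lt_or_eq_of_le hi' with h | h
  · rw [regList_getElem_lt ϖ i h] at hf
    exact X_smul_mem_lowIdeal h hf
  · subst h
    rw [regList_getElem_last ϖ] at hf
    rw [mem_lowIdeal_top_iff] at hf ⊢
    rw [map_mul, constantCoeff_C] at hf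
    exact (mul_eq_zero.mp hf).resolve_left hϖ

end Regular

section DVR

variable (𝒪 : Type*) [CommRing 𝒪] [IsDomain 𝒪] [IsDiscreteValuationRing 𝒪] (r : ℕ)

theorem ofList_regList_eq_maximalIdeal {ϖ : 𝒪} (hϖ : Irreducible ϖ) :
    Ideal.ofList (regList r ϖ) = IsLocalRing.maximalIdeal (MvPowerSeries (Fin r) 𝒪) := by
  have hmax : IsLocalRing.maximalIdeal 𝒪 = Ideal.span {ϖ} := hϖ.maximalIdeal_eq
  have htake : Ideal.ofList ((regList r ϖ).take r) = lowIdeal 𝒪 r r :=
    ofList_take_regList ϖ r le_rfl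
  have hsplit : regList r ϖ = (regList r ϖ).take r ++ [C ϖ] := by
    unfold regList
    rw [List.take_append_of_le_length (by simp), List.take_of_length_le (by simp)]
  apply le_antisymm
  · rw [Ideal.ofList, Ideal.span_le]
    intro x hx
    change x ∈ regList r ϖ at hx
    rw [SetLike.mem_coe, IsLocalRing.mem_maximalIdeal, mem_nonunits_iff,
      MvPowerSeries.isUnit_iff_constantCoeff]
    rw [hsplit, List.mem_append] at hx
    rcases hx with hx | hx
    · have : x ∈ lowIdeal 𝒪 r r := by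
        rw [← htake]; exact Ideal.subset_span hx
      rw [mem_lowIdeal_top_iff] at this
      rw [this]; exact not_isUnit_zero
    · rw [List.mem_singleton] at hx
      rw [hx, constantCoeff_C]
      exact hϖ.not_isUnit
  · intro f hf
    rw [IsLocalRing.mem_maximalIdeal, mem_nonunits_iff,
      MvPowerSeries.isUnit_iff_constantCoeff, ← mem_nonunits_iff,
      ← IsLocalRing.mem_maximalIdeal, hmax, Ideal.mem_span_singleton] at hf
    obtain ⟨a, ha⟩ := hf
    have h1 : f - C ϖ * C a ∈ lowIdeal 𝒪 r r := by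
      rw [mem_lowIdeal_top_iff, map_sub, map_mul, constantCoeff_C, constantCoeff_C, ha, sub_self]
    have h2 : f = (f - C ϖ * C a) + C ϖ * C a := by ring
    rw [h2, hsplit, Ideal.ofList_append]
    refine Submodule.add_mem_sup ?_ ?_
    · rw [htake]; exact h1
    · rw [Ideal.ofList_singleton]
      exact Ideal.mul_mem_right _ _ (Ideal.mem_span_singleton_self _)

theorem isRegular_regList {ϖ : 𝒪} (hϖ : Irreducible ϖ) :
    IsRegular (MvPowerSeries (Fin r) 𝒪) (regList r ϖ) := by
  refine ⟨isWeaklyRegular_regList ϖ hϖ.ne_zero, ?_⟩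
  rw [smul_eq_mul, Ideal.mul_top, ofList_regList_eq_maximalIdeal 𝒪 r hϖ]
  exact (IsLocalRing.maximalIdeal.isMaximal _).ne_top.symm

theorem exists_regular_generators :
    ∃ rs : List (MvPowerSeries (Fin r) 𝒪),
      IsRegular (MvPowerSeries (Fin r) 𝒪) rs ∧
        Ideal.ofList rs = IsLocalRing.maximalIdeal (MvPowerSeries (Fin r) 𝒪) := by
  obtain ⟨ϖ, hϖ⟩ := IsDiscreteValuationRing.exists_irreducible 𝒪
  exact ⟨regList r ϖ, isRegular_regList 𝒪 r hϖ, ofList_regList_eq_maximalIdeal 𝒪 r hϖ⟩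

end DVR

end Fermat.Agent.S57_helper75
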